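import Fermat.Agent.BadRed.Toric.Eval
import Fermat.Agent.BadRed.IntSeries
import Fermat.Agent.Congruence.FrobeniusField
import Fermat.Agent.Curves.BasicOrd

/-!
# Functions on the reduced curve regular away from the cusp, and the Frobenius twist

`regFk` is the ring of functions regular outside `infk`; an ideal of it without common zero is
trivial.  The substitution `iota` moves values by `frobq`.
-/

set_option autoImplicit false

noncomputable section

open AlgebraicCurve FLTA.Curves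

namespace FLTA.BadRed.BadFibre

variable {K : Type*} [Field K] {A : ValuationSubring K}
  {k : Type*} [Field k] {π : A →+* k} {q : ℕ} [NeZero q]
  {F : Type*} [Field F] [Algebra K F] {F' : Type*} [Field F'] [Algebra K F']
  {Fk : Type*} [Field Fk] [Algebra k Fk] {g gF : ℕ} (B : BadFibre A π q F F' Fk g gF)

theorem placeVal_eq_of {Q : Place k Fk} (hQ : Q.deg = 1) {y : Fk} (hy : y ∈ Q.toValuationSubring)
    {c : k} (h : y = algebraMap k Fk c ∨ 0 < Q.ord (y - algebraMap k Fk c)) :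
    placeVal Q y = c := by
  have h2 := placeVal_add hQ hy (Q.algebraMap_mem' (-c))
  rw [placeVal_algebraMap hQ, map_neg, ← sub_eq_add_neg, ← sub_eq_add_neg] at h2
  have hmem : y - algebraMap k Fk c ∈ Q.toValuationSubring := sub_mem hy (Q.algebraMap_mem' c)
  have h0 : placeVal Q (y - algebraMap k Fk c) = 0 :=
    (placeVal_eq_zero_iff hQ hmem).mpr (h.imp_left sub_eq_zero.mpr)
  rwa [h0, eq_comm, sub_eq_zero] at h2

/-- Functions regular away from `infk`. -/
def regFk : Subalgebra k Fk where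
  carrier := {x | ∀ Q : Place k Fk, Q ≠ B.infk → x ∈ Q.toValuationSubring}
  mul_mem' hx hy Q hQ := Q.toValuationSubring.mul_mem _ _ (hx Q hQ) (hy Q hQ)
  add_mem' hx hy Q hQ := Q.toValuationSubring.add_mem _ _ (hx Q hQ) (hy Q hQ)
  algebraMap_mem' c Q _ := Q.algebraMap_mem' c

theorem mem_regFk_of_mem {m : ℤ} {x : Fk}
    (hx : x ∈ riemannRochSpace (Finsupp.single B.infk m)) : x ∈ B.regFk :=
  fun _ hQ => mem_of_mem_single hx hQ

theorem mem_single_of_le {m : ℤ} {x : Fk} (hx : x ∈ B.regFk) (hm : x ≠ 0 → -m ≤ B.infk.ord x) :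
    x ∈ riemannRochSpace (Finsupp.single B.infk m) := by
  classical
  rw [mem_riemannRochSpace_iff]
  intro Q
  rcases eq_or_ne x 0 with h0 | h0
  · exact Or.inl h0
  refine Or.inr ?_
  by_cases hQ : Q = B.infk
  · subst hQ
    rw [Finsupp.single_eq_same]
    exact hm h0
  · rw [Finsupp.single_eq_of_ne hQ, neg_zero]
    exact ord_nonneg_of_mem _ (hx Q hQ)

theorem exists_mem_single {x : Fk} (hx : x ∈ B.regFk) :
    ∃ m : ℕ, x ∈ riemannRochSpace (Finsupp.single B.infk (m : ℤ)) :=
  ⟨(-B.infk.ord x).toNat, B.mem_single_of_le hx fun _ => by omega⟩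

theorem neg_le_ord_infk {m : ℤ} {x : Fk} (hx : x ∈ riemannRochSpace (Finsupp.single B.infk m))
    (h0 : x ≠ 0) : -m ≤ B.infk.ord x := by
  simpa using ((mem_riemannRochSpace_iff.mp hx) B.infk).resolve_left h0

theorem ord_infk_nonpos {x : Fk} (hx : x ∈ B.regFk) (h0 : x ≠ 0) : B.infk.ord x ≤ 0 := by
  classical
  haveI := B.rrk.principal
  obtain ⟨D, hD, hdeg⟩ := HasPrincipalDivisors.exists_divisor (K := k) x h0
  by_contra hpos
  push Not at hpos
  have hsum : Divisor.degree D = D.sum fun _ n => n := by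
    rw [Divisor.degree]
    simp [Finsupp.liftAddHom_apply, B.rrk.deg_eq_one]
  have hnn : ∀ Q ∈ D.support, 0 ≤ D Q := fun Q _ => by
    rw [hD Q]
    by_cases hQ : Q = B.infk
    · subst hQ; exact hpos.le
    · exact ord_nonneg_of_mem _ (hx Q hQ)
  have hmem : B.infk ∈ D.support := by
    rw [Finsupp.mem_support_iff, hD]
    exact hpos.ne'
  have := Finset.single_le_sum hnn hmem
  rw [hsum, Finsupp.sum] at hdeg
  rw [hdeg, hD] at this
  omega

include B in
theorem finite_zeros {x : Fk} (h0 : x ≠ 0) : {Q : Place k Fk | Q.ord x ≠ 0}.Finite := by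
  haveI := B.rrk.principal
  obtain ⟨D, hD, -⟩ := HasPrincipalDivisors.exists_divisor (K := k) x h0
  exact D.support.finite_toSet.subset fun Q hQ => by
    rw [Finset.mem_coe, Finsupp.mem_support_iff, hD]
    exact hQ

include B in
theorem ord_eq_zero_of_placeVal {Q : Place k Fk} {x : Fk} (hx : x ∈ Q.toValuationSubring)
    (h : placeVal Q x ≠ 0) : Q.ord x = 0 := by
  have hnn := ord_nonneg_of_mem _ hx
  by_contra hne
  exact h ((placeVal_eq_zero_iff (B.rrk.deg_eq_one Q) hx).mpr (Or.inr (by omega)))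

/-- Distinct finite places are separated by regular functions. -/
theorem exists_separate {Q₁ Q₂ : Place k Fk} (h₁ : Q₁ ≠ B.infk) (h₂ : Q₂ ≠ B.infk)
    (h : Q₁ ≠ Q₂) : ∃ b ∈ B.regFk, placeVal Q₁ b = 1 ∧ placeVal Q₂ b = 0 := by
  have hinj : Function.Injective ![Q₁, Q₂] := by
    intro i j hij
    fin_cases i <;> fin_cases j <;> first | rfl | exact absurd hij h | exact absurd hij h.symm
  obtain ⟨b, hb⟩ := evalMap_surjective B.rrk (P := B.infk) ![Q₁, Q₂]
    (Fin.forall_fin_two.mpr ⟨h₁, h₂⟩) hinj (m := 2 * g + 2) (by simp) ![1, 0]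
  exact ⟨b, B.mem_regFk_of_mem b.2, congrFun hb 0, congrFun hb 1⟩

/-- An ideal of `regFk` without common zero is trivial. -/
theorem one_mem_of_no_zero [Infinite k] (J : Ideal B.regFk) {c₀ : B.regFk} (hc₀ : c₀ ∈ J)
    (h0 : c₀ ≠ 0)
    (hJ : ∀ Q : Place k Fk, Q ≠ B.infk → ∃ x ∈ J, placeVal Q (x : Fk) ≠ 0) :
    (1 : B.regFk) ∈ J := by
  classical
  have h0' : (c₀ : Fk) ≠ 0 := fun h => h0 (Subtype.ext h)
  let Z : Finset (Place k Fk) := (B.finite_zeros h0').toFinset.erase B.infk
  -- one element of `J` avoiding all zeros of `c₀`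
  obtain ⟨x, hxJ, hxZ⟩ : ∃ x ∈ J, ∀ Q ∈ Z, placeVal Q (x : Fk) ≠ 0 := by
    suffices H : ∀ T : Finset (Place k Fk), T ⊆ Z → ∃ x ∈ J, ∀ Q ∈ T, placeVal Q (x : Fk) ≠ 0 from
      H Z subset_rfl
    intro T
    induction T using Finset.induction_on with
    | empty => exact fun _ => ⟨0, J.zero_mem, by simp⟩
    | insert Q₀ T hQ₀ ih =>
      intro hsub
      have hT : T ⊆ Z := (Finset.subset_insert _ _).trans hsub
      have hne : ∀ Q ∈ insert Q₀ T, Q ≠ B.infk := fun Q hQ => Finset.ne_of_mem_erase (hsub hQ)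
      obtain ⟨x, hxJ, hx⟩ := ih hT
      obtain ⟨y, hyJ, hy⟩ := hJ Q₀ (hne _ (Finset.mem_insert_self _ _))
      obtain ⟨l, hl⟩ := Infinite.exists_notMem_finset
        ((insert Q₀ T).image fun Q => -placeVal Q (x : Fk) / placeVal Q (y : Fk))
      refine ⟨x + l • y, J.add_mem hxJ (Submodule.smul_of_tower_mem J l hyJ), fun Q hQ => ?_⟩
      have hQinf := hne Q hQ
      have hval : placeVal Q ((x + l • y : B.regFk) : Fk) =
          placeVal Q (x : Fk) + l * placeVal Q (y : Fk) := by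
        have hly : l • (y : Fk) ∈ Q.toValuationSubring := (l • y : B.regFk).2 Q hQinf
        show placeVal Q ((x : Fk) + l • (y : Fk)) = _
        rw [placeVal_add (B.rrk.deg_eq_one Q) (x.2 Q hQinf) hly,
          placeVal_smul (B.rrk.deg_eq_one Q) l (y.2 Q hQinf)]
      rw [hval]
      intro hzero
      by_cases hyQ : placeVal Q (y : Fk) = 0
      · rw [hyQ, mul_zero, add_zero] at hzero
        rcases Finset.mem_insert.mp hQ with h | h
        · exact hy (h ▸ hyQ)
        · exact hx Q h hzero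
      · exact hl (Finset.mem_image.mpr ⟨Q, hQ, by field_simp; linear_combination -hzero⟩)
  rcases eq_or_ne x 0 with hx0 | hx0
  · -- then `c₀` has no zero at all
    subst hx0
    have hnz : ∀ Q : Place k Fk, Q ≠ B.infk → Q.ord (c₀ : Fk) = 0 := fun Q hQ => by
      by_contra hne
      exact hxZ Q (Finset.mem_erase.mpr ⟨hQ, by simpa using hne⟩)
        (by rw [ZeroMemClass.coe_zero, placeVal_zero (B.rrk.deg_eq_one Q)])
    have hinv : (c₀ : Fk)⁻¹ ∈ B.regFk := fun Q hQ =>
      (mem_iff_ord_nonneg _ (inv_ne_zero h0')).mpr (by rw [Q.ord_inv, hnz Q hQ, neg_zero])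
    have := J.mul_mem_left ⟨_, hinv⟩ hc₀
    rwa [show (⟨_, hinv⟩ : B.regFk) * c₀ = 1 from Subtype.ext (inv_mul_cancel₀ h0')] at this
  have hx0' : (x : Fk) ≠ 0 := fun h => hx0 (Subtype.ext h)
  obtain ⟨u, hu⟩ : ∃ u : ℕ, B.infk.ord (c₀ : Fk) = -u :=
    ⟨(-B.infk.ord (c₀ : Fk)).toNat, by have := B.ord_infk_nonpos c₀.2 h0'; omega⟩
  obtain ⟨w, hw⟩ : ∃ w : ℕ, B.infk.ord (x : Fk) = -w :=
    ⟨(-B.infk.ord (x : Fk)).toNat, by have := B.ord_infk_nonpos x.2 hx0'; omega⟩
  set N : ℕ := u + w + 2 * g with hN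
  let L : ℕ → Submodule k Fk := fun m => riemannRochSpace (Finsupp.single B.infk (m : ℤ))
  haveI : ∀ m : ℕ, FiniteDimensional k (L m) := fun m => B.rrk.finiteDimensional _
  have hprod : ∀ {y : B.regFk} {d e : ℕ}, B.infk.ord (y : Fk) = -(d : ℤ) → d ≤ e →
      ∀ a ∈ L (e - d), a * (y : Fk) ∈ L e := by
    intro y d e hy hde a ha
    refine B.mem_single_of_le (B.regFk.mul_mem (B.mem_regFk_of_mem ha) y.2) fun hne => ?_
    have := B.neg_le_ord_infk ha (left_ne_zero_of_mul hne)
    rw [B.infk.ord_mul (left_ne_zero_of_mul hne) (right_ne_zero_of_mul hne), hy]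
    push_cast [hde] at this
    omega
  let φ : L (N - u) × L (N - w) →ₗ[k] L N :=
    { toFun := fun p => ⟨p.1 * (c₀ : Fk) + p.2 * (x : Fk),
        (L N).add_mem (hprod hu (by omega) _ p.1.2) (hprod hw (by omega) _ p.2.2)⟩
      map_add' := fun p r => Subtype.ext (by simp; ring)
      map_smul' := fun l p => Subtype.ext (by simp [smul_add, smul_mul_assoc]) }
  have hker : ∀ p ∈ LinearMap.ker φ, ((p.2 : Fk) / (c₀ : Fk)) ∈ L (N - u - w) := by
    intro p hp
    have he : (p.1 : Fk) * (c₀ : Fk) = -((p.2 : Fk) * (x : Fk)) :=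
      eq_neg_of_add_eq_zero_left (congrArg Subtype.val (LinearMap.mem_ker.mp hp))
    rcases eq_or_ne (p.2 : Fk) 0 with h2 | h2
    · rw [h2, zero_div]; exact zero_mem _
    have h1 : (p.1 : Fk) ≠ 0 := fun h => by
      rw [h, zero_mul, eq_comm, neg_eq_zero] at he
      exact mul_ne_zero h2 hx0' he
    have hord : ∀ Q : Place k Fk, Q.ord (p.1 : Fk) + Q.ord (c₀ : Fk) =
        Q.ord (p.2 : Fk) + Q.ord (x : Fk) := fun Q => by
      rw [← Q.ord_mul h1 h0', ← Q.ord_mul h2 hx0', he, ord_neg]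
    refine B.mem_single_of_le (fun Q hQ => ?_) fun _ => ?_
    · refine (mem_iff_ord_nonneg _ (div_ne_zero h2 h0')).mpr ?_
      rw [div_eq_mul_inv, Q.ord_mul h2 (inv_ne_zero h0'), Q.ord_inv]
      have hp2 := ord_nonneg_of_mem _ (B.mem_regFk_of_mem p.2.2 Q hQ)
      have hp1 := ord_nonneg_of_mem _ (B.mem_regFk_of_mem p.1.2 Q hQ)
      by_cases hQZ : Q.ord (c₀ : Fk) = 0
      · omega
      · have := B.ord_eq_zero_of_placeVal (x.2 Q hQ)
          (hxZ Q (Finset.mem_erase.mpr ⟨hQ, by simpa using hQZ⟩))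
        have := hord Q
        omega
    · rw [div_eq_mul_inv, B.infk.ord_mul h2 (inv_ne_zero h0'), B.infk.ord_inv, hu]
      have := B.neg_le_ord_infk p.2.2 h2
      omega
  let ψ : LinearMap.ker φ →ₗ[k] L (N - u - w) :=
    { toFun := fun p => ⟨(p.1.2 : Fk) / (c₀ : Fk), hker _ p.2⟩
      map_add' := fun p r => Subtype.ext (by simp [add_div])
      map_smul' := fun l p => Subtype.ext (by simp [smul_div_assoc]) }
  have hψ : Function.Injective ψ := by
    intro p r hpr
    have h2 : (p.1.2 : Fk) = r.1.2 := by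
      have := congrArg Subtype.val hpr
      exact (div_left_inj' h0').mp this
    refine Subtype.ext (Prod.ext (Subtype.ext ?_) (Subtype.ext h2))
    have hp := congrArg Subtype.val (LinearMap.mem_ker.mp p.2)
    have hr := congrArg Subtype.val (LinearMap.mem_ker.mp r.2)
    refine mul_right_cancel₀ h0' (add_right_cancel (b := (r.1.2 : Fk) * (x : Fk)) ?_)
    exact (congrArg (fun t => (p.1.1 : Fk) * (c₀ : Fk) + t * (x : Fk)) h2).symm.trans (hp.trans hr.symm)
  have h3 := LinearMap.finrank_le_finrank_of_injective hψ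
  have h4 := φ.finrank_range_add_finrank_ker
  rw [Module.finrank_prod] at h4
  have hdim : ∀ m : ℕ, 2 * g ≤ m + 1 → (Module.finrank k (L m) : ℤ) = m + 1 - g :=
    fun m hm => finrank_riemannRochSpace_single B.rrk hm
  have d1 := hdim N (by omega)
  have d2 := hdim (N - u) (by omega)
  have d3 := hdim (N - w) (by omega)
  have d4 := hdim (N - u - w) (by omega)
  have hle := Submodule.finrank_le (LinearMap.range φ)
  have hsurj : LinearMap.range φ = ⊤ := Submodule.eq_top_of_finrank_eq (by omega)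
  have hone : (1 : Fk) ∈ L N := B.mem_single_of_le B.regFk.one_mem fun _ => by
    rw [B.infk.ord_one]; omega
  obtain ⟨p, hp⟩ := LinearMap.range_eq_top.mp hsurj ⟨1, hone⟩
  have e : ((⟨p.1, B.mem_regFk_of_mem p.1.2⟩ : B.regFk) * c₀ +
      ⟨p.2, B.mem_regFk_of_mem p.2.2⟩ * x) = 1 := Subtype.ext (congrArg Subtype.val hp :)
  rw [← e]
  exact J.add_mem (J.mul_mem_left _ hc₀) (J.mul_mem_left _ hxJ)

section Frobenius

variable [Fact q.Prime] [CharP k q]

theorem exk_frobq_eq (x : Fk) :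
    B.exk (B.frobq • x) = ModularCurve.coeffMap (frobenius k q) (B.exk x) := by
  ext i
  rw [ModularCurve.coeffMap_coeff]
  exact B.exk_frobq x i

theorem order_coeffMap_frobenius (z : LaurentSeries k) :
    (ModularCurve.coeffMap (frobenius k q) z).order = z.order := by
  rcases eq_or_ne z 0 with rfl | hz
  · simp
  have hc : ∀ i, (ModularCurve.coeffMap (frobenius k q) z).coeff i ≠ 0 ↔ z.coeff i ≠ 0 := fun i => by
    rw [ModularCurve.coeffMap_coeff, ne_eq, map_eq_zero]
  have hne : ModularCurve.coeffMap (frobenius k q) z ≠ 0 := fun h =>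
    (hc z.order).mpr (mt HahnSeries.coeff_order_eq_zero.mp hz) (by rw [h]; simp)
  exact le_antisymm
    (HahnSeries.order_le_of_coeff_ne_zero ((hc _).mpr (mt HahnSeries.coeff_order_eq_zero.mp hz)))
    (HahnSeries.order_le_of_coeff_ne_zero ((hc _).mp (mt HahnSeries.coeff_order_eq_zero.mp hne)))

theorem frobq_smul_infk_eq : B.frobq • B.infk = B.infk := by
  refine place_ext_ord fun f => ?_
  obtain ⟨x, rfl⟩ : ∃ x, f = B.frobq • x := ⟨B.frobq⁻¹ • f, (smul_inv_smul _ _).symm⟩
  rw [SemilinearAut.ord_smul]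
  rcases eq_or_ne x 0 with rfl | hx
  · simp
  rw [B.ord_infk _ ((smul_ne_zero_iff_ne _).mpr hx), B.exk_frobq_eq, order_coeffMap_frobenius,
    B.ord_infk x hx]

theorem frobq_smul_ne_infk {Q : Place k Fk} (h : Q ≠ B.infk) : B.frobq • Q ≠ B.infk := fun h' =>
  h (MulAction.injective B.frobq (h'.trans B.frobq_smul_infk_eq.symm))

theorem iota_eq (x : Fk) : B.iota x = (B.frobq⁻¹ • x) ^ q := by
  apply B.exk.injective
  show B.exk (B.iota x) = B.exk ((B.frobq⁻¹ • x) ^ q)
  haveI : ExpChar k q := ExpChar.prime Fact.out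
  rw [B.exk_iota, map_pow, ← FLTA.Congruence.qExpand_coeffMap_frobenius q, ← B.exk_frobq_eq,
    smul_inv_smul]

theorem ord_iota (Q : Place k Fk) (x : Fk) : Q.ord (B.iota x) = q * (B.frobq • Q).ord x := by
  rw [B.iota_eq, ord_pow]
  congr 1
  conv_rhs => rw [← smul_inv_smul B.frobq x]
  exact (SemilinearAut.ord_smul _ _ _).symm

theorem mem_smul_iff {Q : Place k Fk} {x : Fk} :
    B.frobq⁻¹ • x ∈ Q.toValuationSubring ↔ x ∈ (B.frobq • Q).toValuationSubring := by
  rw [SemilinearAut.smul_toValuationSubring, ValuationSubring.mem_pointwise_smul_iff_inv_smul_mem]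

theorem iota_mem_regFk {x : Fk} (hx : x ∈ B.regFk) : B.iota x ∈ B.regFk := fun Q hQ => by
  rw [B.iota_eq]
  exact pow_mem (B.mem_smul_iff.mpr (hx _ (B.frobq_smul_ne_infk hQ))) q

theorem placeVal_frobq_smul {Q : Place k Fk} {x : Fk} (hx : x ∈ Q.toValuationSubring) :
    placeVal (B.frobq • Q) (B.frobq • x) = placeVal Q x ^ q := by
  have hmem : B.frobq • x ∈ (B.frobq • Q).toValuationSubring := by
    rw [← B.mem_smul_iff, inv_smul_smul]
    exact hx
  refine placeVal_eq_of (B.rrk.deg_eq_one _) hmem ?_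
  have hc : algebraMap k Fk (placeVal Q x ^ q) = B.frobq • algebraMap k Fk (placeVal Q x) := by
    rw [SemilinearAut.smul_algebraMap, B.baseAut_frobq]
  have hsub : x - algebraMap k Fk (placeVal Q x) ∈ Q.toValuationSubring :=
    sub_mem hx (Q.algebraMap_mem' _)
  have h0 : placeVal Q (x - algebraMap k Fk (placeVal Q x)) = 0 := by
    have h2 := placeVal_add (B.rrk.deg_eq_one Q) hx (Q.algebraMap_mem' (-placeVal Q x))
    rw [placeVal_algebraMap (B.rrk.deg_eq_one Q), map_neg, ← sub_eq_add_neg, add_neg_cancel] at h2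
    exact h2
  rcases (placeVal_eq_zero_iff (B.rrk.deg_eq_one Q) hsub).mp h0 with h | h
  · exact Or.inl (hc ▸ congrArg (B.frobq • ·) (sub_eq_zero.mp h))
  · exact Or.inr (by rw [hc, ← smul_sub, SemilinearAut.ord_smul]; exact h)

theorem placeVal_iota {Q : Place k Fk} (hQ : Q ≠ B.infk) {x : Fk} (hx : x ∈ B.regFk) :
    placeVal Q (B.iota x) = placeVal (B.frobq • Q) x := by
  have h := B.mem_smul_iff.mpr (hx _ (B.frobq_smul_ne_infk hQ))
  rw [B.iota_eq, placeVal_pow (B.rrk.deg_eq_one Q) h, ← B.placeVal_frobq_smul h, smul_inv_smul]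

end Frobenius

/-- A regular function with a simple zero at a given finite place. -/
theorem exists_ord_one {Q : Place k Fk} (hQ : Q ≠ B.infk) :
    ∃ b ∈ B.regFk, b ≠ 0 ∧ Q.ord b = 1 := by
  classical
  set E : ℤ → Divisor k Fk :=
    fun j => Finsupp.single B.infk ((2 * g + 1 : ℕ) : ℤ) - Finsupp.single Q j
  have hdeg : ∀ j, Divisor.degree (E j) = (2 * g + 1 : ℕ) - j := fun j => by
    simp only [E, map_sub, Divisor.degree_single, B.rrk.deg_eq_one]
    push_cast; ring
  haveI := B.rrk.finiteDimensional (E 1)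
  haveI := B.rrk.finiteDimensional (E 2)
  have h1 := B.rrk.finrank_eq (E 1) (by rw [hdeg]; push_cast; omega)
  have h2 := B.rrk.finrank_eq (E 2) (by rw [hdeg]; push_cast; omega)
  rw [hdeg] at h1 h2
  have hnle : ¬ riemannRochSpace (E 1) ≤ riemannRochSpace (E 2) := fun h => by
    have := Submodule.finrank_mono h
    omega
  obtain ⟨b, hb, hb'⟩ := SetLike.not_le_iff_exists.mp hnle
  have hb0 : b ≠ 0 := fun h => hb' (h ▸ zero_mem _)
  rw [mem_riemannRochSpace_iff] at hb hb'
  have hv : ∀ v : Place k Fk, -(E 1 v) ≤ v.ord b := fun v => (hb v).resolve_left hb0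
  refine ⟨b, fun v hv' => (mem_iff_ord_nonneg _ hb0).mpr ?_, hb0, ?_⟩
  · have h := hv v
    simp only [E, Finsupp.sub_apply, Finsupp.single_eq_of_ne hv'] at h
    by_cases hvQ : v = Q
    · subst hvQ; simp at h; omega
    · simp [Finsupp.single_eq_of_ne hvQ] at h; omega
  · push Not at hb'
    obtain ⟨v, -, hlt⟩ := hb'
    have h := hv v
    have hQ' := hv Q
    simp only [E, Finsupp.sub_apply] at h hlt hQ'
    by_cases hvQ : v = Q
    · subst hvQ
      simp [Finsupp.single_eq_of_ne hQ] at h hlt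
      omega
    · simp [Finsupp.single_eq_of_ne hvQ] at h hlt
      omega

/-- A regular function with pole of exact order `u` at the cusp. -/
theorem exists_exact_pole {u : ℕ} (hu : 2 * g + 1 ≤ u) :
    ∃ b ∈ riemannRochSpace (Finsupp.single B.infk (u : ℤ)), b ≠ 0 ∧ B.infk.ord b = -u := by
  classical
  haveI := B.rrk.finiteDimensional (Finsupp.single B.infk (u : ℤ))
  haveI := B.rrk.finiteDimensional (Finsupp.single B.infk ((u - 1 : ℕ) : ℤ))
  have h1 := finrank_riemannRochSpace_single B.rrk (P := B.infk) (m := u) (by omega)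
  have h2 := finrank_riemannRochSpace_single B.rrk (P := B.infk) (m := u - 1) (by omega)
  have hnle : ¬ riemannRochSpace (Finsupp.single B.infk (u : ℤ)) ≤
      riemannRochSpace (Finsupp.single B.infk ((u - 1 : ℕ) : ℤ)) := fun h => by
    have := Submodule.finrank_mono h
    omega
  obtain ⟨b, hb, hb'⟩ := SetLike.not_le_iff_exists.mp hnle
  have hb0 : b ≠ 0 := fun h => hb' (h ▸ zero_mem _)
  refine ⟨b, hb, hb0, le_antisymm ?_ (B.neg_le_ord_infk hb hb0)⟩
  by_contra hlt
  exact hb' (B.mem_single_of_le (B.mem_regFk_of_mem hb) fun _ => by omega)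

end FLTA.BadRed.BadFibre

end
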