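import Fermat.Agent.BadRed.Residue
import Fermat.Agent.BadRed.Toric.Bounded
import Fermat.Agent.BadRed.Fibre.Regular
import Fermat.Agent.Curves.RRSpace

/-!
# The reduced sections

`secs m` is the space of reductions of `L(m (∞ + 0))`; it has dimension `2 m + 1 - gF`, is
compatible with products, contains `(b, iota b)` and stabilises in `L(m infk)²`.
-/

set_option autoImplicit false

noncomputable section

open AlgebraicCurve FLTA.Curves

namespace FLTA.BadRed.BadFibre

variable {K : Type*} [Field K] [IsAlgClosed K] [CharZero K] {A : ValuationSubring K}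
  {k : Type*} [Field k] [IsAlgClosed k] {π : A →+* k}
  {q : ℕ} [NeZero q] [Fact q.Prime] [CharP k q]
  {F : Type*} [Field F] [Algebra K F] {F' : Type*} [Field F'] [Algebra K F']
  {Fk : Type*} [Field Fk] [Algebra k Fk] {g gF : ℕ} (B : BadFibre A π q F F' Fk g gF)

omit [IsAlgClosed K] [CharZero K] [IsAlgClosed k] [Fact q.Prime] [CharP k q] in
theorem exk_smul_eq (c : k) (x : Fk) : B.exk (c • x) = c • B.exk x := by
  rw [Algebra.smul_def, map_mul, AlgHom.commutes,
    ModularCurve.algebraMap_laurentSeries_eq_single]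
  ext j
  simp

omit [IsAlgClosed K] [CharZero K] [IsAlgClosed k] [Fact q.Prime] [CharP k q] in
theorem isRed_add {G H : F} {p r : Fin 2 → Fk} (hG : B.IsRed G p) (hH : B.IsRed H r) :
    B.IsRed (G + H) (p + r) := by
  refine ⟨fun i => ?_, fun i => ?_⟩
  · show IntSeries A (B.e i (G + H))
    rw [map_add]
    exact (hG.1 i).add (hH.1 i)
  · rw [Pi.add_apply, map_add, map_add, hG.2, hH.2]
    exact (redSeries_add (hG.1 i) (hH.1 i)).symm

omit [IsAlgClosed K] [CharZero K] [IsAlgClosed k] [Fact q.Prime] [CharP k q] in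
theorem isRed_mul {G H : F} {p r : Fin 2 → Fk} (hG : B.IsRed G p) (hH : B.IsRed H r) :
    B.IsRed (G * H) (p * r) := by
  refine ⟨fun i => ?_, fun i => ?_⟩
  · show IntSeries A (B.e i (G * H))
    rw [map_mul]
    exact (hG.1 i).mul (hH.1 i)
  · rw [Pi.mul_apply, map_mul, map_mul, hG.2, hH.2]
    exact (redSeries_mul (hG.1 i) (hH.1 i)).symm

omit [IsAlgClosed K] [CharZero K] [IsAlgClosed k] [Fact q.Prime] [CharP k q] in
theorem isRed_one : B.IsRed (1 : F) 1 := by
  refine ⟨fun i => ?_, fun i => ?_⟩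
  · show IntSeries A (B.e i 1)
    rw [map_one]
    exact IntSeries.one
  · rw [Pi.one_apply, map_one, map_one, redSeries_one]

omit [IsAlgClosed K] [CharZero K] [IsAlgClosed k] [Fact q.Prime] [CharP k q] in
theorem isRed_smul {G : F} {p : Fin 2 → Fk} (hG : B.IsRed G p) (a : A) :
    B.IsRed ((a : K) • G) (π a • p) := by
  refine ⟨fun i => ?_, fun i => ?_⟩
  · show IntSeries A (B.e i ((a : K) • G))
    rw [← B.smul_e]
    exact (hG.1 i).smul a.2
  · rw [Pi.smul_apply, B.exk_smul_eq, hG.2, ← B.smul_e]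
    exact (redSeries_smul a.2 (hG.1 i)).symm

omit [IsAlgClosed K] [CharZero K] [IsAlgClosed k] [Fact q.Prime] [CharP k q] in
theorem isRed_w {G : F} {p : Fin 2 → Fk} (hG : B.IsRed G p) :
    B.IsRed (B.w G) ![p 1, p 0] := by
  have h0 : B.e 0 (B.w G) = B.e 1 G := rfl
  have h1 : B.e 1 (B.w G) = B.e 0 G := congrArg B.ex (B.w_w G)
  refine ⟨fun i => ?_, fun i => ?_⟩
  · show IntSeries A (B.e i (B.w G))
    revert i
    exact Fin.forall_fin_two.mpr ⟨h0 ▸ hG.1 1, h1 ▸ hG.1 0⟩
  · revert i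
    exact Fin.forall_fin_two.mpr ⟨h0 ▸ hG.2 1, h1 ▸ hG.2 0⟩

/-- The reductions of `L(m (∞ + 0))`, a `k`-space. -/
def secs (m : ℕ) : Submodule k (Fin 2 → Fk) where
  carrier := B.fibreSections m
  add_mem' := by
    rintro p r ⟨G, hG, hp⟩ ⟨H, hH, hr⟩
    exact ⟨G + H, add_mem hG hH, B.isRed_add hp hr⟩
  zero_mem' := ⟨0, zero_mem _, fun i => by
    show IntSeries A (B.e i 0)
    rw [map_zero]
    exact IntSeries.zero, fun i => by simp⟩
  smul_mem' := by
    rintro c p ⟨G, hG, hp⟩
    obtain ⟨a, rfl⟩ := B.R.π_surjective c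
    exact ⟨(a : K) • G, Submodule.smul_mem _ _ hG, B.isRed_smul hp a⟩

omit [IsAlgClosed K] [CharZero K] [IsAlgClosed k] [Fact q.Prime] [CharP k q] in
theorem mem_secs {m : ℕ} {p : Fin 2 → Fk} : p ∈ B.secs m ↔ p ∈ B.fibreSections m := Iff.rfl

omit [IsAlgClosed K] [CharZero K] [IsAlgClosed k] [Fact q.Prime] [CharP k q] in
theorem secs_mono {m l : ℕ} (h : m ≤ l) : B.secs m ≤ B.secs l :=
  fun _ ⟨G, hG, hp⟩ => ⟨G, riemannRochSpace_mono (B.cuspDiv_mono h) hG, hp⟩

omit [IsAlgClosed K] [CharZero K] [IsAlgClosed k] [Fact q.Prime] [CharP k q] in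
theorem mul_mem_secs {m l : ℕ} {p r : Fin 2 → Fk} (hp : p ∈ B.secs m) (hr : r ∈ B.secs l) :
    p * r ∈ B.secs (m + l) := by
  obtain ⟨G, hG, hp⟩ := hp
  obtain ⟨H, hH, hr⟩ := hr
  exact ⟨G * H, B.cuspDiv_add m l ▸ mul_mem_riemannRochSpace hG hH, B.isRed_mul hp hr⟩

omit [IsAlgClosed K] [CharZero K] [IsAlgClosed k] [Fact q.Prime] [CharP k q] in
theorem swap_mem_secs {m : ℕ} {p : Fin 2 → Fk} (hp : p ∈ B.secs m) :
    ![p 1, p 0] ∈ B.secs m := by
  obtain ⟨G, hG, hp⟩ := hp
  exact ⟨B.w G, B.w_mem_riemannRochSpace hG, B.isRed_w hp⟩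

omit [IsAlgClosed K] [CharZero K] [IsAlgClosed k] [Fact q.Prime] [CharP k q] in
theorem one_mem_secs : (1 : Fin 2 → Fk) ∈ B.secs 0 :=
  ⟨1, by simp [mem_riemannRochSpace_iff, cuspDiv, Place.ord_one], B.isRed_one⟩

/-- The pairs of functions on the two components with poles of order at most `m` at the cusp. -/
def pairsLE (m : ℕ) : Submodule k (Fin 2 → Fk) where
  carrier := {p | ∀ i, p i ∈ riemannRochSpace (Finsupp.single B.infk (m : ℤ))}
  add_mem' hp hr i := add_mem (hp i) (hr i)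
  zero_mem' _ := zero_mem _
  smul_mem' c _ hp i := Submodule.smul_mem _ c (hp i)

omit [IsAlgClosed K] [CharZero K] [IsAlgClosed k] [Fact q.Prime] [CharP k q] in
theorem mem_pairsLE {m : ℕ} {p : Fin 2 → Fk} :
    p ∈ B.pairsLE m ↔ ∀ i, p i ∈ riemannRochSpace (Finsupp.single B.infk (m : ℤ)) := Iff.rfl

omit [IsAlgClosed K] [CharZero K] [IsAlgClosed k] [Fact q.Prime] [CharP k q] in
theorem pairsLE_mono {m l : ℕ} (h : m ≤ l) : B.pairsLE m ≤ B.pairsLE l :=
  fun _ hp i => riemannRochSpace_mono (Finsupp.single_le_single.mpr (by exact_mod_cast h)) (hp i)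

/-- The pairs as a product. -/
def pairsEquiv (m : ℕ) : B.pairsLE m ≃ₗ[k]
    riemannRochSpace (Finsupp.single B.infk (m : ℤ)) ×
      riemannRochSpace (Finsupp.single B.infk (m : ℤ)) where
  toFun p := (⟨p.1 0, p.2 0⟩, ⟨p.1 1, p.2 1⟩)
  invFun x := ⟨![(x.1 : Fk), (x.2 : Fk)], Fin.forall_fin_two.mpr ⟨x.1.2, x.2.2⟩⟩
  left_inv p := Subtype.ext (funext (Fin.forall_fin_two.mpr ⟨rfl, rfl⟩))
  right_inv _ := rfl
  map_add' _ _ := rfl
  map_smul' _ _ := rfl

omit [IsAlgClosed K] [CharZero K] [IsAlgClosed k] [Fact q.Prime] [CharP k q] in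
theorem finiteDimensional_pairsLE (m : ℕ) : FiniteDimensional k (B.pairsLE m) := by
  haveI := B.rrk.finiteDimensional (Finsupp.single B.infk (m : ℤ))
  exact (B.pairsEquiv m).symm.finiteDimensional

omit [IsAlgClosed K] [CharZero K] [IsAlgClosed k] [Fact q.Prime] [CharP k q] in
theorem finrank_pairsLE {m : ℕ} (hm : 2 * g ≤ m + 1) :
    (Module.finrank k (B.pairsLE m) : ℤ) = 2 * ((m : ℤ) + 1 - g) := by
  haveI := B.rrk.finiteDimensional (Finsupp.single B.infk (m : ℤ))
  rw [(B.pairsEquiv m).finrank_eq, Module.finrank_prod, Nat.cast_add,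
    finrank_riemannRochSpace_single B.rrk hm]
  ring

theorem secs_le_pairsLE (m : ℕ) : B.secs m ≤ B.pairsLE m :=
  fun _ ⟨_, hG, hp⟩ i => B.mem_riemannRochSpace_of_isRed hG hp i

theorem finiteDimensional_secs (m : ℕ) : FiniteDimensional k (B.secs m) :=
  haveI := B.finiteDimensional_pairsLE m
  Submodule.finiteDimensional_of_le (B.secs_le_pairsLE m)

/-- The reduced expansions of a pair. -/
def exkPair : (Fin 2 → Fk) →ₗ[k] (Fin 2 → LaurentSeries k) where
  toFun p i := B.exk (p i)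
  map_add' p r := funext fun i => map_add B.exk (p i) (r i)
  map_smul' c p := funext fun i => B.exk_smul_eq c (p i)

omit [IsAlgClosed K] [CharZero K] [IsAlgClosed k] [Fact q.Prime] [CharP k q] in
theorem exkPair_injective : Function.Injective B.exkPair :=
  fun _ _ h => funext fun i => B.exk.injective (congrFun h i)

theorem finrank_secs {m : ℕ} (hm : gF ≤ m) :
    (Module.finrank k (B.secs m) : ℤ) = 2 * m + 1 - gF := by
  classical
  haveI := B.rrF.finiteDimensional (B.cuspDiv m)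
  haveI : FiniteDimensional K ((riemannRochSpace (B.cuspDiv m)).map B.pair) :=
    Module.Finite.map _ _
  have hinj : Function.Injective B.pair :=
    fun x y h => (B.e 0).injective (congrFun h 0)
  have hsc : Scalable π ((riemannRochSpace (B.cuspDiv m)).map B.pair) := by
    rintro _ ⟨G, hG, rfl⟩ hne
    exact exists_primitive_multiple B.discrete hne (fun i => B.bddSeries_e i hG)
      (fun i => B.fgSeries_e i G)
  obtain ⟨hset, -, hrank⟩ := finrank_span_redSet B.R.π_surjective _ hsc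
  have himg : (B.secs m).map B.exkPair =
      Submodule.span k (redSet π ((riemannRochSpace (B.cuspDiv m)).map B.pair)) := by
    apply SetLike.coe_injective
    rw [hset]
    ext z
    constructor
    · rintro ⟨p, ⟨G, hG, hp⟩, rfl⟩
      exact ⟨B.pair G, Submodule.mem_map_of_mem hG, hp.1, hp.2⟩
    · rintro ⟨_, ⟨G, hG, rfl⟩, hint, hz⟩
      obtain ⟨p, hp⟩ := B.exists_isRed (G := G) hint
      exact ⟨p, ⟨G, hG, hp⟩, funext fun i => (hp.2 i).trans (hz i).symm⟩
  rw [(Submodule.equivMapOfInjective _ B.exkPair_injective (B.secs m)).finrank_eq, himg, hrank,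
    ← (Submodule.equivMapOfInjective _ hinj (riemannRochSpace (B.cuspDiv m))).finrank_eq]
  exact B.finrank_cuspDiv hm

omit [IsAlgClosed K] [IsAlgClosed k] [CharP k q] in
/-- Lifts along `a` of the functions on the reduced curve. -/
theorem exists_lift {l : ℕ} (hl : 2 * g ≤ l) {b : Fk}
    (hb : b ∈ riemannRochSpace (Finsupp.single B.infk (l : ℤ))) :
    ∃ x ∈ riemannRochSpace (Finsupp.single B.inf (l : ℤ)), B.IsRed (B.a x) ![b, B.iota b] := by
  have hq : 2 ≤ q := Nat.Prime.two_le Fact.out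
  rcases eq_or_ne b 0 with rfl | hb0
  · refine ⟨0, zero_mem _, fun i => ?_, fun i => ?_⟩
    · show IntSeries A (B.e i (B.a 0))
      rw [map_zero, map_zero]
      exact IntSeries.zero
    · revert i
      exact Fin.forall_fin_two.mpr ⟨by simp, by simp⟩
  obtain ⟨x, hxL, hxb⟩ := (B.reduces_inf l hl).surj b hb
  have hax : B.a (x : F') ∈ riemannRochSpace (B.cuspDiv (q * l)) :=
    B.a_mem_riemannRochSpace hq hxL
  have hx0 : (x : F') ≠ 0 := fun h => hb0 (by
    rw [← hxb, show x = 0 from Subtype.ext h, map_zero])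
  obtain ⟨c, hc0, hcint, hcne⟩ := exists_primitive_multiple_one (π := π) B.discrete
    (B.e_ne_zero 0 ((map_ne_zero B.a).mpr hx0)) (B.bddSeries_e 0 hax) (B.fgSeries_e 0 _)
  rw [B.smul_e, ← map_smul] at hcint hcne
  -- the scaled lift is integral with the reduced expansion
  obtain ⟨hmem, hred⟩ := B.red_of_int (c • (x : F')) hcint
  have hint : IntSeries A (B.ex (B.a (x : F'))) := by
    by_contra hnot
    have hcinv : c⁻¹ ∉ A := fun hci => hnot <| by
      have := hcint.smul hci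
      rw [B.smul_e, ← map_smul, inv_smul_smul₀ hc0] at this
      exact this
    have hcA : c ∈ A := (A.mem_or_inv_mem c).resolve_right hcinv
    apply hcne
    rw [B.e_zero, ← hred]
    have : (⟨c • (x : F'), hmem⟩ : B.R.O) = ⟨algebraMap K F' c, B.R.algebraMap_mem ⟨c, hcA⟩⟩ * x :=
      Subtype.ext (by simp [Algebra.smul_def])
    rw [this, map_mul, B.R.red_algebraMap ⟨c, hcA⟩,
      residue_eq_zero_of_inv_notMem B.R.π_surjective hcA hcinv, map_zero, zero_mul, map_zero]
  obtain ⟨hmem', hred'⟩ := B.red_of_int (x : F') hint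
  have hb' : B.exk b = redSeries A π (B.ex (B.a (x : F'))) := hxb ▸ hred'
  refine ⟨x, hxL, fun i => ?_, fun i => ?_⟩
  · show IntSeries A (B.e i (B.a (x : F')))
    revert i
    refine Fin.forall_fin_two.mpr ⟨hint, ?_⟩
    rw [B.e_one_apply, B.ex_w_a]
    exact hint.qExpand q
  · revert i
    refine Fin.forall_fin_two.mpr ⟨hb', ?_⟩
    show B.exk (B.iota b) = redSeries A π (B.ex (B.w (B.a (x : F'))))
    rw [B.exk_iota, hb', B.ex_w_a, redSeries_qExpand q hint]

omit [IsAlgClosed K] [IsAlgClosed k] [CharP k q] in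
theorem iota_pair_mem_secs {l : ℕ} (hl : 2 * g ≤ l) {b : Fk}
    (hb : b ∈ riemannRochSpace (Finsupp.single B.infk (l : ℤ))) :
    ![b, B.iota b] ∈ B.secs (q * l) := by
  obtain ⟨x, hx, hred⟩ := B.exists_lift hl hb
  exact ⟨B.a x, B.a_mem_riemannRochSpace (Nat.Prime.two_le Fact.out) hx, hred⟩

omit [IsAlgClosed K] [IsAlgClosed k] [CharP k q] in
theorem a_mul_wa_mem {u v m : ℕ} (hm : u + q * v ≤ m) (hm' : q * u + v ≤ m) {x y : F'}
    (hx : x ∈ riemannRochSpace (Finsupp.single B.inf (u : ℤ)))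
    (hy : y ∈ riemannRochSpace (Finsupp.single B.inf (v : ℤ))) :
    B.a x * B.w (B.a y) ∈ riemannRochSpace (B.cuspDiv m) := by
  have hq : 2 ≤ q := Nat.Prime.two_le Fact.out
  have hax := B.a_mem_riemannRochSpace hq hx
  have hwy := B.w_a_mem_riemannRochSpace hq hy
  rw [mem_riemannRochSpace_iff] at hax hwy ⊢
  intro P
  rcases eq_or_ne x 0 with rfl | hx0
  · simp
  rcases eq_or_ne y 0 with rfl | hy0
  · simp
  right
  have hu : -(u : ℤ) ≤ B.inf.ord x := by
    simpa using ((mem_riemannRochSpace_iff.mp hx) B.inf).resolve_left hx0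
  have hv : -(v : ℤ) ≤ B.inf.ord y := by
    simpa using ((mem_riemannRochSpace_iff.mp hy) B.inf).resolve_left hy0
  have hax0 : B.a x ≠ 0 := (map_ne_zero B.a).mpr hx0
  have hwy0 : B.w (B.a y) ≠ 0 := (map_ne_zero B.w).mpr ((map_ne_zero B.a).mpr hy0)
  rw [P.ord_mul hax0 hwy0]
  have h1 : (u : ℤ) + q * v ≤ m := by exact_mod_cast hm
  have h2 : (q : ℤ) * u + v ≤ m := by exact_mod_cast hm'
  by_cases h0 : P = B.P 0
  · rw [h0, B.cuspDiv_apply hq, B.ord_P_zero_a hx0, B.ord_P_zero_wa hy0]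
    nlinarith
  by_cases h0' : P = B.P 1
  · rw [h0', B.cuspDiv_apply hq, B.ord_P_one_a hx0, B.ord_P_one_wa hy0]
    nlinarith
  have hx' := (hax P).resolve_left hax0
  have hy' := (hwy P).resolve_left hwy0
  rw [B.cuspDiv_apply_of_ne _ h0 h0'] at hx' hy' ⊢
  omega

omit [IsAlgClosed K] [IsAlgClosed k] in
/-- In large degree there is a section with full pole at one cusp only. -/
theorem exists_top {m : ℕ} (hm : 2 * g + 1 + q * (2 * g + q + 1) ≤ m) :
    ∃ p ∈ B.secs m, B.infk.ord (p 0) = -(m : ℤ) ∧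
      p 1 ∈ riemannRochSpace (Finsupp.single B.infk ((m - 1 : ℕ) : ℤ)) := by
  have hq : 2 ≤ q := Nat.Prime.two_le Fact.out
  set u : ℕ := 2 * g + 1 + (m - (2 * g + 1)) % q with hu
  set v : ℕ := (m - (2 * g + 1)) / q with hv
  have hmod : (m - (2 * g + 1)) % q < q := Nat.mod_lt _ (by omega)
  have hsum : u + q * v = m := by
    have := Nat.mod_add_div (m - (2 * g + 1)) q
    rw [← hv] at this
    omega
  have hvge : 2 * g + q + 1 ≤ v :=
    (Nat.le_div_iff_mul_le (by omega)).mpr (by rw [mul_comm]; omega)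
  have huv : u < v := by omega
  have hlt : q * u + v < m := by
    rw [← hsum]
    nlinarith
  obtain ⟨bu, hbu, hbu0, hordu⟩ := B.exists_exact_pole (u := u) (by omega)
  obtain ⟨bv, hbv, hbv0, hordv⟩ := B.exists_exact_pole (u := v) (by omega)
  obtain ⟨x, hx, hxr⟩ := B.exists_lift (l := u) (by omega) hbu
  obtain ⟨y, hy, hyr⟩ := B.exists_lift (l := v) (by omega) hbv
  have hbu' := B.mem_regFk_of_mem hbu
  have hbv' := B.mem_regFk_of_mem hbv
  refine ⟨![bu, B.iota bu] * ![B.iota bv, bv],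
    ⟨B.a x * B.w (B.a y), B.a_mul_wa_mem hsum.le hlt.le hx hy, B.isRed_mul hxr (B.isRed_w hyr)⟩,
    ?_, ?_⟩
  · show B.infk.ord (bu * B.iota bv) = _
    rw [B.infk.ord_mul hbu0 ((map_ne_zero B.iota).mpr hbv0), B.ord_iota, B.frobq_smul_infk_eq,
      hordu, hordv, ← hsum]
    push_cast
    ring
  · show B.iota bu * bv ∈ _
    refine B.mem_single_of_le (B.regFk.mul_mem (B.iota_mem_regFk hbu') hbv') fun _ => ?_
    rw [B.infk.ord_mul ((map_ne_zero B.iota).mpr hbu0) hbv0, B.ord_iota, B.frobq_smul_infk_eq,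
      hordu, hordv]
    have : q * u + v ≤ m - 1 := by omega
    have h' : (q : ℤ) * u + v ≤ ((m - 1 : ℕ) : ℤ) := by exact_mod_cast this
    linarith

/-- The sections stabilise. -/
theorem secs_inf_pairsLE_pred {m : ℕ} (hm : 2 * g + 1 + q * (2 * g + q + 1) + gF + 1 ≤ m) :
    B.secs m ⊓ B.pairsLE (m - 1) = B.secs (m - 1) := by
  classical
  haveI := B.finiteDimensional_secs m
  haveI := B.finiteDimensional_secs (m - 1)
  haveI := B.finiteDimensional_pairsLE m
  haveI := B.finiteDimensional_pairsLE (m - 1)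
  obtain ⟨p, hp, hp0, hp1⟩ := B.exists_top (m := m) (by omega)
  have hle : B.secs (m - 1) ≤ B.secs m ⊓ B.pairsLE (m - 1) :=
    le_inf (B.secs_mono (Nat.sub_le m 1)) (B.secs_le_pairsLE _)
  set L := riemannRochSpace (Finsupp.single B.infk (m : ℤ)) with hL
  set L' := riemannRochSpace (Finsupp.single B.infk ((m - 1 : ℕ) : ℤ)) with hL'
  haveI : FiniteDimensional k L := B.rrk.finiteDimensional _
  haveI : FiniteDimensional k L' := B.rrk.finiteDimensional _
  have hp0L : p 0 ∈ L := B.secs_le_pairsLE m hp 0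
  have hp0L' : p 0 ∉ L' := fun h => by
    have hne : p 0 ≠ 0 := fun h0 => by rw [h0, Place.ord_zero] at hp0; omega
    have := B.neg_le_ord_infk h hne
    omega
  have hspan : L ≤ L' ⊔ Submodule.span k {p 0} := by
    have hsub : L' ⊔ Submodule.span k {p 0} ≤ L :=
      sup_le (riemannRochSpace_mono (Finsupp.single_le_single.mpr (by omega)))
        ((Submodule.span_singleton_le_iff_mem _ _).mpr hp0L)
    haveI : FiniteDimensional k (L' ⊔ Submodule.span k {p 0} : Submodule k Fk) :=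
      Submodule.finiteDimensional_of_le hsub
    have hlt : L' < L' ⊔ Submodule.span k {p 0} :=
      left_lt_sup.mpr fun h => hp0L' (h (Submodule.mem_span_singleton_self _))
    have h1 := Submodule.finrank_lt_finrank_of_lt hlt
    have h2 := finrank_riemannRochSpace_single B.rrk (P := B.infk) (m := m) (by omega)
    have h3 := finrank_riemannRochSpace_single B.rrk (P := B.infk) (m := m - 1) (by omega)
    rw [← hL] at h2
    rw [← hL'] at h3
    exact (Submodule.eq_of_le_of_finrank_le hsub (by omega)).ge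
  have hsup : B.pairsLE m ≤ B.secs m ⊔ B.pairsLE (m - 1) := by
    intro y hy
    obtain ⟨z0, hz0, w0, hw0, e0⟩ := Submodule.mem_sup.mp (hspan (hy 0))
    obtain ⟨c, rfl⟩ := Submodule.mem_span_singleton.mp hw0
    obtain ⟨z1, hz1, w1, hw1, e1⟩ := Submodule.mem_sup.mp (hspan (hy 1))
    obtain ⟨d, rfl⟩ := Submodule.mem_span_singleton.mp hw1
    rw [Submodule.mem_sup]
    refine ⟨c • p + d • ![p 1, p 0],
      add_mem (Submodule.smul_mem _ c hp) (Submodule.smul_mem _ d (B.swap_mem_secs hp)),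
      y - (c • p + d • ![p 1, p 0]), ?_, by abel⟩
    refine Fin.forall_fin_two.mpr ⟨?_, ?_⟩
    · have : (y - (c • p + d • ![p 1, p 0])) 0 = z0 - d • p 1 := by
        show y 0 - (c • p 0 + d • p 1) = _
        rw [← e0]
        abel
      rw [this]
      exact sub_mem hz0 (Submodule.smul_mem _ d hp1)
    · have : (y - (c • p + d • ![p 1, p 0])) 1 = z1 - c • p 1 := by
        show y 1 - (c • p 1 + d • p 0) = _
        rw [← e1]
        abel
      rw [this]
      exact sub_mem hz1 (Submodule.smul_mem _ c hp1)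
  have h4 := Submodule.finrank_sup_add_finrank_inf_eq (B.secs m) (B.pairsLE (m - 1))
  haveI : FiniteDimensional k (B.secs m ⊔ B.pairsLE (m - 1) : Submodule k (Fin 2 → Fk)) :=
    Submodule.finiteDimensional_sup _ _
  have h5 := Submodule.finrank_mono hsup
  have h6 := B.finrank_secs (m := m) (by omega)
  have h7 := B.finrank_secs (m := m - 1) (by omega)
  have h8 := B.finrank_pairsLE (m := m) (by omega)
  have h9 := B.finrank_pairsLE (m := m - 1) (by omega)
  haveI : FiniteDimensional k (B.secs m ⊓ B.pairsLE (m - 1) : Submodule k (Fin 2 → Fk)) :=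
    Submodule.finiteDimensional_inf_left _ _
  exact (Submodule.eq_of_le_of_finrank_le hle (by omega)).symm

/-- Sections of any level with small poles are sections of small level. -/
theorem mem_secs_of_mem_pairsLE {m l : ℕ}
    (hm : 2 * g + 1 + q * (2 * g + q + 1) + gF ≤ m) {p : Fin 2 → Fk}
    (hp : p ∈ B.secs l) (hpm : p ∈ B.pairsLE m) : p ∈ B.secs m := by
  induction l with
  | zero => exact B.secs_mono (Nat.zero_le m) hp
  | succ n ih =>
    rcases Nat.lt_or_ge m (n + 1) with hlt | hge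
    · refine ih ?_
      have h := B.secs_inf_pairsLE_pred (m := n + 1) (by omega)
      rw [Nat.add_sub_cancel] at h
      exact h ▸ Submodule.mem_inf.mpr ⟨hp, B.pairsLE_mono (by omega) hpm⟩
    · exact B.secs_mono hge hp

end FLTA.BadRed.BadFibre

end
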